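import Mathlib

/-!
# S24 / MOD-DEG, algebra half (helper644)

Pure algebra (no modular forms):

* `biEval j θ Q` : evaluation of `Q ∈ K[X][Y]` at `(j, θ)`.
* `finrank_le_of_span_monic` (D2): if `F = K(j, S)` with `S` finite, `K` infinite of
  characteristic zero, and every `K`-linear combination `θ` of `S` is killed by some
  `Q ∈ K[X][Y]`, monic in `Y` of degree `n`, evaluated at `(j, θ)`, then `F / K(j)` is finite of
  degree `≤ n`.
-/

set_option autoImplicit false

namespace Fermat.Agent.S24.H644

open Polynomial IntermediateField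

noncomputable section

variable {K F : Type*} [Field K] [Field F] [Algebra K F]

/-- Evaluation of a bivariate polynomial `Q ∈ K[X][Y]` at `(j, θ) ∈ F²`. -/
def biEval (j θ : F) (Q : Polynomial (Polynomial K)) : F :=
  Polynomial.eval₂ (Polynomial.eval₂RingHom (algebraMap K F) j) θ Q

/-- The canonical ring hom `K[X] → K(j)`, `X ↦ j`. -/
def toAdj (j : F) : K[X] →+* ↥(adjoin K ({j} : Set F)) :=
  Polynomial.eval₂RingHom (algebraMap K ↥(adjoin K ({j} : Set F))) (AdjoinSimple.gen K j)

theorem algebraMap_comp_toAdj (j : F) :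
    (algebraMap ↥(adjoin K ({j} : Set F)) F).comp (toAdj (K := K) j)
      = Polynomial.eval₂RingHom (algebraMap K F) j := by
  refine Polynomial.ringHom_ext (fun a => ?_) ?_
  · simp [toAdj]
  · simp [toAdj]

theorem aeval_map_toAdj (j θ : F) (Q : Polynomial (Polynomial K)) :
    Polynomial.aeval θ (Q.map (toAdj (K := K) j)) = biEval j θ Q := by
  rw [Polynomial.aeval_def, Polynomial.eval₂_map, algebraMap_comp_toAdj]
  rfl


/-- A monic relation over `K[X]` at `(j, θ)` makes `θ` integral over `K(j)`, with a monic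
annihilating polynomial of the same degree. -/
theorem exists_monic_over_adj {j θ : F} {n : ℕ} {Q : Polynomial (Polynomial K)}
    (hQ : Q.Monic) (hn : Q.natDegree = n) (h0 : biEval j θ Q = 0) :
    ∃ q : Polynomial ↥(adjoin K ({j} : Set F)), q.Monic ∧ q.natDegree = n ∧
      Polynomial.aeval θ q = 0 :=
  ⟨Q.map (toAdj j), hQ.map _, by rw [hQ.natDegree_map, hn], by rw [aeval_map_toAdj, h0]⟩

/-- The locus where two algebra homs out of a field agree, as an intermediate field. -/
def eqLocusField {E F Ω : Type*} [Field E] [Field F] [Field Ω] [Algebra E F] [Algebra E Ω]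
    (τ τ' : F →ₐ[E] Ω) : IntermediateField E F where
  toSubalgebra := AlgHom.equalizer τ τ'
  inv_mem' := by
    intro x hx
    have hx' : τ x = τ' x := hx
    show τ x⁻¹ = τ' x⁻¹
    rw [map_inv₀, map_inv₀, hx']

theorem algHom_eq_of_adjoin_eq_top {E F Ω : Type*} [Field E] [Field F] [Field Ω] [Algebra E F]
    [Algebra E Ω] {S : Set F} (hS : adjoin E S = ⊤) {τ τ' : F →ₐ[E] Ω}
    (h : ∀ s ∈ S, τ s = τ' s) : τ = τ' := by
  have hle : adjoin E S ≤ eqLocusField τ τ' := adjoin_le_iff.mpr fun s hs => h s hs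
  rw [hS] at hle
  exact AlgHom.ext fun x => hle (mem_top (F := E) (E := F) (x := x))

section Main

variable [Infinite K] [CharZero K]

/-- **Degree bound.**  If `F = K(j, S)` with `S` finite and every `K`-linear combination of `S`
is killed by a polynomial over `K[j]` which is monic of degree `n`, then `[F : K(j)] ≤ n`. -/
theorem finrank_le_of_span_monic (j : F) (S : Finset F) (n : ℕ)
    (hgen : adjoin K (insert j (S : Set F)) = ⊤)
    (hpoly : ∀ θ ∈ Submodule.span K (S : Set F),
      ∃ Q : Polynomial (Polynomial K), Q.Monic ∧ Q.natDegree = n ∧ biEval j θ Q = 0) :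
    FiniteDimensional ↥(adjoin K ({j} : Set F)) F ∧
      Module.finrank ↥(adjoin K ({j} : Set F)) F ≤ n := by
  classical
  set E : IntermediateField K F := adjoin K ({j} : Set F) with hE
  -- integrality of the span
  have hint : ∀ θ ∈ Submodule.span K (S : Set F),
      ∃ q : Polynomial E, q.Monic ∧ q.natDegree = n ∧ Polynomial.aeval θ q = 0 := by
    intro θ hθ
    obtain ⟨Q, hQ, hn, h0⟩ := hpoly θ hθ
    exact exists_monic_over_adj hQ hn h0
  have hintS : ∀ s ∈ (S : Set F), IsIntegral E s := by
    intro s hs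
    obtain ⟨q, hq, -, h0⟩ := hint s (Submodule.subset_span hs)
    exact ⟨q, hq, h0⟩
  -- `F = E(S)`
  have htop : adjoin E (S : Set F) = ⊤ := by
    rw [← restrictScalars_eq_top_iff (K := K), hE, adjoin_adjoin_left, ← hgen]
    congr 1
  have hfinS : FiniteDimensional E (adjoin E (S : Set F)) := by
    have : Finite (S : Set F) := S.finite_toSet
    exact finiteDimensional_adjoin hintS
  have hfd : FiniteDimensional E F := by
    rw [htop] at hfinS
    exact (IntermediateField.topEquiv (F := E) (E := F)).toLinearEquiv.finiteDimensional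
  refine ⟨hfd, ?_⟩
  -- count embeddings into an algebraic closure
  let Ω := AlgebraicClosure F
  have hcard : Fintype.card (F →ₐ[E] Ω) = Module.finrank E F := AlgHom.card E F Ω
  rw [← hcard]
  -- the linear maps measuring the difference of two embeddings on a linear combination
  let Lin : (F →ₐ[E] Ω) × (F →ₐ[E] Ω) → ((S → K) →ₗ[K] Ω) := fun p =>
    ∑ s : S, (LinearMap.proj (R := K) (φ := fun _ : S => K) s).smulRight (p.1 s - p.2 s)
  have hLin : ∀ (p : (F →ₐ[E] Ω) × (F →ₐ[E] Ω)) (c : S → K),
      Lin p c = ∑ s : S, c s • (p.1 s - p.2 s) := by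
    intro p c
    simp [Lin, LinearMap.sum_apply]
  -- avoid all the kernels
  obtain ⟨c, hc⟩ : ∃ c : S → K, ∀ p : {p : (F →ₐ[E] Ω) × (F →ₐ[E] Ω) // p.1 ≠ p.2},
      c ∉ LinearMap.ker (Lin p.1) := by
    apply Submodule.exists_forall_notMem_of_forall_ne_top
    rintro ⟨⟨τ, τ'⟩, hne⟩ htop'
    apply hne
    refine algHom_eq_of_adjoin_eq_top htop fun s hs => ?_
    have hmem : (Pi.single (⟨s, hs⟩ : S) (1 : K) : S → K) ∈ LinearMap.ker (Lin (τ, τ')) := by
      rw [htop']; exact Submodule.mem_top
    rw [LinearMap.mem_ker, hLin] at hmem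
    rw [Finset.sum_eq_single (⟨s, hs⟩ : S)] at hmem
    · simpa [sub_eq_zero] using hmem
    · intro b _ hb
      simp [Pi.single_apply, hb]
    · intro h; exact absurd (Finset.mem_univ _) h
  -- the generic element
  set θ : F := ∑ s : S, c s • (s : F) with hθ
  have hθmem : θ ∈ Submodule.span K (S : Set F) :=
    Submodule.sum_mem _ fun s _ => Submodule.smul_mem _ _ (Submodule.subset_span s.2)
  obtain ⟨q, hq, hqn, hq0⟩ := hint θ hθmem
  have hτθ : ∀ τ : F →ₐ[E] Ω, τ θ = ∑ s : S, c s • τ (s : F) := by
    intro τ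
    rw [hθ, map_sum]
    refine Finset.sum_congr rfl fun s _ => ?_
    rw [Algebra.smul_def, Algebra.smul_def, map_mul]
    congr 1
    rw [IsScalarTower.algebraMap_apply K E F, AlgHom.commutes,
      ← IsScalarTower.algebraMap_apply K E Ω]
  have hinj : Function.Injective fun τ : F →ₐ[E] Ω => τ θ := by
    intro τ τ' h
    by_contra hne
    apply hc ⟨(τ, τ'), hne⟩
    rw [LinearMap.mem_ker, hLin]
    simp only [smul_sub, Finset.sum_sub_distrib]
    rw [← hτθ, ← hτθ]
    exact sub_eq_zero.mpr h
  have hroot : ∀ τ : F →ₐ[E] Ω, τ θ ∈ (q.map (algebraMap E Ω)).roots.toFinset := by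
    intro τ
    rw [Multiset.mem_toFinset, Polynomial.mem_roots (hq.map _).ne_zero, Polynomial.IsRoot,
      Polynomial.eval_map, ← Polynomial.aeval_def, Polynomial.aeval_algHom_apply, hq0, map_zero]
  calc Fintype.card (F →ₐ[E] Ω)
      ≤ (q.map (algebraMap E Ω)).roots.toFinset.card :=
        Finset.card_le_card_of_injOn (fun τ => τ θ) (fun τ _ => hroot τ)
          (fun τ _ τ' _ h => hinj h)
    _ ≤ Multiset.card (q.map (algebraMap E Ω)).roots := Multiset.toFinset_card_le _
    _ ≤ (q.map (algebraMap E Ω)).natDegree := Polynomial.card_roots' _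
    _ = n := by rw [hq.natDegree_map, hqn]

end Main

end

end Fermat.Agent.S24.H644
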