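import Fermat.Agent.S24.H644.DegBound

/-!
# S24 / MOD-DEG (helper644): the `ρ`-trick

Descent of a monic bivariate relation between Laurent series with coefficients in `K`
from coefficients in an extension field `L ⊇ K` down to `K`.
-/

set_option autoImplicit false

namespace Fermat.Agent.S24.H644

open Polynomial

noncomputable section

section CoeffwiseMap

variable {A B : Type*} [Semiring A] [Semiring B]

/-- Apply an additive map coefficientwise to a polynomial. -/
def mapCoeff (ρ : A →+ B) (p : Polynomial A) : Polynomial B :=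
  ∑ a ∈ Finset.range (p.natDegree + 1), Polynomial.monomial a (ρ (p.coeff a))

@[simp]
theorem coeff_mapCoeff (ρ : A →+ B) (p : Polynomial A) (a : ℕ) :
    (mapCoeff ρ p).coeff a = ρ (p.coeff a) := by
  rw [mapCoeff, Polynomial.finsetSum_coeff]
  simp only [Polynomial.coeff_monomial]
  rw [Finset.sum_ite_eq' (Finset.range (p.natDegree + 1)) a]
  split_ifs with h
  · rfl
  · rw [Finset.mem_range, not_lt, Nat.add_one_le_iff] at h
    rw [Polynomial.coeff_eq_zero_of_natDegree_lt h, map_zero]

theorem natDegree_mapCoeff_le (ρ : A →+ B) (p : Polynomial A) :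
    (mapCoeff ρ p).natDegree ≤ p.natDegree := by
  refine Polynomial.natDegree_le_iff_coeff_eq_zero.mpr fun N hN => ?_
  rw [coeff_mapCoeff, Polynomial.coeff_eq_zero_of_natDegree_lt hN, map_zero]

/-- `mapCoeff` as an additive map. -/
def mapCoeffHom (ρ : A →+ B) : Polynomial A →+ Polynomial B where
  toFun := mapCoeff ρ
  map_zero' := by ext a; simp
  map_add' p q := by ext a; simp

@[simp]
theorem mapCoeffHom_apply (ρ : A →+ B) (p : Polynomial A) : mapCoeffHom ρ p = mapCoeff ρ p := rfl

theorem mapCoeff_one (ρ : A →+ B) (h1 : ρ 1 = 1) : mapCoeff ρ (1 : Polynomial A) = 1 := by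
  ext a
  rw [coeff_mapCoeff, Polynomial.coeff_one, Polynomial.coeff_one]
  split_ifs <;> simp [h1]

end CoeffwiseMap

section BiEval

variable {K F : Type*} [Field K] [Field F] [Algebra K F]

/-- Expansion of `biEval` as a finite double sum. -/
theorem biEval_eq_sum (x y : F) (Q : Polynomial (Polynomial K)) (n N : ℕ)
    (hn : Q.natDegree < n) (hN : ∀ b < n, (Q.coeff b).natDegree < N) :
    biEval x y Q = ∑ b ∈ Finset.range n, ∑ a ∈ Finset.range N,
      algebraMap K F ((Q.coeff b).coeff a) * (x ^ a * y ^ b) := by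
  rw [biEval, Polynomial.eval₂_eq_sum_range' _ hn]
  refine Finset.sum_congr rfl fun b hb => ?_
  rw [Polynomial.coe_eval₂RingHom,
    Polynomial.eval₂_eq_sum_range' _ (hN b (Finset.mem_range.mp hb)), Finset.sum_mul]
  refine Finset.sum_congr rfl fun a _ => ?_
  ring

end BiEval

section Descent

variable {K L : Type*} [Field K] [Field L]

theorem algebraMap_laurent_eq_single (c : K) :
    algebraMap K (LaurentSeries K) c = HahnSeries.single 0 c := by
  have h1 : algebraMap K (PowerSeries K) c = PowerSeries.C c := by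
    simp
  rw [HahnSeries.algebraMap_apply', h1, HahnSeries.ofPowerSeries_C]
  rfl

theorem coeff_algebraMap_mul (r : K) (x : LaurentSeries K) (m : ℤ) :
    (algebraMap K (LaurentSeries K) r * x).coeff m = r * x.coeff m := by
  rw [algebraMap_laurent_eq_single, HahnSeries.coeff_single_mul, sub_zero]

/-- A `K`-linear retraction of `ι : K → L`. -/
theorem exists_retraction (ι : K →+* L) :
    ∃ ρ : L →+ K, ρ 1 = 1 ∧ ∀ (l : L) (k : K), ρ (l * ι k) = ρ l * k := by
  let _ : Algebra K L := ι.toAlgebra
  obtain ⟨g, hg⟩ := LinearMap.exists_leftInverse_of_injective (Algebra.linearMap K L)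
    (LinearMap.ker_eq_bot.mpr (algebraMap K L).injective)
  refine ⟨g.toAddMonoidHom, ?_, ?_⟩
  · have := LinearMap.congr_fun hg 1
    simpa using this
  · intro l k
    have h : l * ι k = k • l := by
      rw [Algebra.smul_def, mul_comm]; rfl
    show g (l * ι k) = g l * k
    rw [h, map_smul, smul_eq_mul, mul_comm]

/-- **The `ρ`-trick.**  A monic relation with coefficients in `L` between two Laurent series with
coefficients in `K` descends to a monic relation of the same degree with coefficients in `K`. -/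
theorem exists_monic_descent (ι : K →+* L) (Φ : LaurentSeries K →+* LaurentSeries L)
    (hΦ : ∀ (x : LaurentSeries K) (m : ℤ), (Φ x).coeff m = ι (x.coeff m))
    (j θ : LaurentSeries K) (n : ℕ) (P : Polynomial (Polynomial L)) (hP : P.Monic)
    (hn : P.natDegree = n) (h0 : biEval (Φ j) (Φ θ) P = 0) :
    ∃ Q : Polynomial (Polynomial K), Q.Monic ∧ Q.natDegree = n ∧ biEval j θ Q = 0 := by
  classical
  obtain ⟨ρ, hρ1, hρ⟩ := exists_retraction ι
  set Q : Polynomial (Polynomial K) := mapCoeff (mapCoeffHom ρ) P with hQ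
  have hQc : ∀ b, Q.coeff b = mapCoeff ρ (P.coeff b) := fun b => by
    rw [hQ, coeff_mapCoeff, mapCoeffHom_apply]
  have hQle : Q.natDegree ≤ n := hn ▸ natDegree_mapCoeff_le _ P
  have hQn : Q.coeff n = 1 := by
    rw [hQc, ← hn, Polynomial.coeff_natDegree, hP.leadingCoeff, mapCoeff_one ρ hρ1]
  have hQdeg : Q.natDegree = n :=
    le_antisymm hQle (Polynomial.le_natDegree_of_ne_zero (by rw [hQn]; exact one_ne_zero))
  refine ⟨Q, ?_, hQdeg, ?_⟩
  · rw [Polynomial.Monic, Polynomial.leadingCoeff, hQdeg, hQn]
  -- a common bound for the `X`-degrees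
  set N : ℕ := (Finset.range (n + 1)).sup (fun b => (P.coeff b).natDegree) + 1 with hN
  have hNP : ∀ b < n + 1, (P.coeff b).natDegree < N := fun b hb =>
    Nat.lt_succ_of_le (Finset.le_sup (f := fun b => (P.coeff b).natDegree)
      (Finset.mem_range.mpr hb))
  have hNQ : ∀ b < n + 1, (Q.coeff b).natDegree < N := fun b hb =>
    lt_of_le_of_lt (by rw [hQc]; exact natDegree_mapCoeff_le _ _) (hNP b hb)
  have eP := biEval_eq_sum (Φ j) (Φ θ) P (n + 1) N (by omega) hNP
  have eQ := biEval_eq_sum j θ Q (n + 1) N (by omega) hNQ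
  rw [eQ]
  rw [eP] at h0
  ext m
  have h0m := congrArg (fun z : LaurentSeries L => ρ (z.coeff m)) h0
  simp only [HahnSeries.coeff_sum, HahnSeries.coeff_zero, map_zero, map_sum] at h0m ⊢
  rw [← h0m]
  refine Finset.sum_congr rfl fun b _ => Finset.sum_congr rfl fun a _ => ?_
  rw [← map_pow, ← map_pow, ← map_mul, coeff_algebraMap_mul, coeff_algebraMap_mul, hΦ, hQc,
    coeff_mapCoeff, hρ]

end Descent

end

end Fermat.Agent.S24.H644
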