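import Fermat.Agent.S24.Mod.H997Bridge
import Fermat.Agent.S24.H644.DegBound
import Fermat.Agent.S24.H644.Descent

/-!
# S24 / MOD-DEG (helper644): the degree bound `[FF N : ℚ̄(j)] ≤ |SL₂(ℤ)/Γ₀(N)|`

Input: a `HolBase N` (helper997) satisfying the *invariant polynomial principle*
`InvariantPoly B`: every `SL₂(ℤ)`-invariant element of `Hol` is a polynomial in `J 1`.
Output: `FiniteDimensional ℚ̄(j) (FF N)` and `finrank ≤ Nat.card (XX N)`.
-/

set_option autoImplicit false

noncomputable section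

open ModularCurve HahnSeries UpperHalfPlane Polynomial
open Fermat.Agent.S24.H997
open scoped MatrixGroups

namespace Fermat.Agent.S24.H644

variable {N : ℕ} [NeZero N] (B : HolBase N)

/-- constants, as a ring hom `ℂ →+* Hol` -/
def constHom : ℂ →+* B.Hol where
  toFun := B.constH
  map_one' := rfl
  map_mul' _ _ := rfl
  map_zero' := rfl
  map_add' _ _ := rfl

@[simp] theorem constHom_apply (c : ℂ) : constHom B c = B.constH c := rfl

/-- The ring hom `ℂ[X] → Hol`, `X ↦ J 1`. -/
def evalJ : Polynomial ℂ →+* B.Hol :=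
  Polynomial.eval₂RingHom (constHom B) (B.JH 1 (one_dvd N))

/-- **Invariant polynomial principle**: every `SL₂(ℤ)`-invariant element of `Hol` is a polynomial
in `J 1 = j`. -/
def InvariantPoly : Prop :=
  ∀ h : B.Hol, (∀ g : SL(2, ℤ), B.compH g h = h) → ∃ p : Polynomial ℂ, h = evalJ B p

/-! ### Conjugates -/

/-- The conjugate `h ∘ g⁻¹` attached to the coset `x = g Γ₀(N)`. -/
def conj (h : B.Hol) (x : XX N) : B.Hol := B.compH (Quotient.out x)⁻¹ h

variable {B}

theorem conj_mk {h : B.Hol} (hinv : ∀ γ ∈ CongruenceSubgroup.Gamma0 N, B.compH γ h = h)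
    (g : SL(2, ℤ)) : conj B h (g : XX N) = B.compH g⁻¹ h := by
  obtain ⟨γ, hγ⟩ := QuotientGroup.mk_out_eq_mul (CongruenceSubgroup.Gamma0 N) g
  show B.compH (Quotient.out (g : XX N))⁻¹ h = _
  rw [hγ, mul_inv_rev, B.compH_mul, hinv _ (inv_mem γ.2)]

theorem compH_conj {h : B.Hol} (hinv : ∀ γ ∈ CongruenceSubgroup.Gamma0 N, B.compH γ h = h)
    (g : SL(2, ℤ)) (x : XX N) : B.compH g (conj B h x) = conj B h (g⁻¹ • x) := by
  induction x using QuotientGroup.induction_on with
  | H a =>
    have : (g⁻¹ • (a : XX N)) = ((g⁻¹ * a : SL(2, ℤ)) : XX N) := rfl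
    rw [this, conj_mk hinv, conj_mk hinv, ← B.compH_mul, mul_inv_rev, inv_inv]


/-- `SL₂(ℤ)/Γ₀(N)` is finite (local instance only). -/
def fintypeXX : Fintype (XX N) := Fintype.ofFinite _

attribute [local instance] fintypeXX

variable (B) in
/-- The characteristic polynomial `∏ₓ (Y - h ∘ gₓ⁻¹)` of `h`. -/
def charPolyH (h : B.Hol) : Polynomial B.Hol :=
  ∏ x : XX N, (Polynomial.X - Polynomial.C (conj B h x))

theorem charPolyH_monic (h : B.Hol) : (charPolyH B h).Monic :=
  Polynomial.monic_prod_of_monic _ _ fun x _ => Polynomial.monic_X_sub_C _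

theorem nontrivial_Hol : Nontrivial B.Hol :=
  ⟨⟨0, 1, fun h => by
    have := congrArg (fun f : B.Hol => (f : ℍ → ℂ) UpperHalfPlane.I) h
    simp at this⟩⟩

attribute [local instance] nontrivial_Hol

theorem charPolyH_natDegree (h : B.Hol) : (charPolyH B h).natDegree = Fintype.card (XX N) := by
  rw [charPolyH, Polynomial.natDegree_prod_of_monic _ _ fun _ _ => Polynomial.monic_X_sub_C _]
  simp

theorem map_compH_charPolyH {h : B.Hol}
    (hinv : ∀ γ ∈ CongruenceSubgroup.Gamma0 N, B.compH γ h = h) (g : SL(2, ℤ)) :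
    (charPolyH B h).map (B.compH g) = charPolyH B h := by
  rw [charPolyH, Polynomial.map_prod]
  simp only [Polynomial.map_sub, Polynomial.map_X, Polynomial.map_C, compH_conj hinv]
  exact Fintype.prod_equiv (MulAction.toPerm g⁻¹) _ _ fun x => rfl

theorem compH_coeff_charPolyH {h : B.Hol}
    (hinv : ∀ γ ∈ CongruenceSubgroup.Gamma0 N, B.compH γ h = h) (g : SL(2, ℤ)) (k : ℕ) :
    B.compH g ((charPolyH B h).coeff k) = (charPolyH B h).coeff k := by
  conv_rhs => rw [← map_compH_charPolyH hinv g]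
  rw [Polynomial.coeff_map]

theorem eval_charPolyH {h : B.Hol}
    (hinv : ∀ γ ∈ CongruenceSubgroup.Gamma0 N, B.compH γ h = h) :
    (charPolyH B h).eval h = 0 := by
  rw [charPolyH, Polynomial.eval_prod]
  refine Finset.prod_eq_zero (Finset.mem_univ ((1 : SL(2, ℤ)) : XX N)) ?_
  rw [Polynomial.eval_sub, Polynomial.eval_X, Polynomial.eval_C, conj_mk hinv, inv_one,
    B.compH_one, sub_self]

/-- The monic bivariate relation over `ℂ` in `Hol`. -/
theorem exists_monic_relation_hol (hB : InvariantPoly B) {h : B.Hol}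
    (hinv : ∀ γ ∈ CongruenceSubgroup.Gamma0 N, B.compH γ h = h) :
    ∃ P : Polynomial (Polynomial ℂ), P.Monic ∧ P.natDegree = Fintype.card (XX N) ∧
      Polynomial.eval₂ (evalJ B) h P = 0 := by
  classical
  set n := Fintype.card (XX N) with hn
  have hex : ∀ k, ∃ p : Polynomial ℂ, (charPolyH B h).coeff k = evalJ B p := fun k =>
    hB _ fun g => compH_coeff_charPolyH hinv g k
  choose p hp using hex
  set R : Polynomial (Polynomial ℂ) :=
    ∑ k ∈ Finset.range n, Polynomial.C (p k) * Polynomial.X ^ k with hR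
  have hRdeg : R.degree < (n : WithBot ℕ) := by
    rw [Polynomial.degree_lt_iff_coeff_zero]
    intro m hm
    rw [hR, Polynomial.finsetSum_coeff]
    refine Finset.sum_eq_zero fun k hk => ?_
    rw [Polynomial.coeff_C_mul_X_pow, if_neg]
    have := Finset.mem_range.mp hk
    omega
  refine ⟨Polynomial.X ^ n + R, Polynomial.monic_X_pow_add hRdeg, ?_, ?_⟩
  · rw [Polynomial.natDegree_add_eq_left_of_degree_lt (by rwa [Polynomial.degree_X_pow]),
      Polynomial.natDegree_X_pow]
  · have h1 := eval_charPolyH hinv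
    rw [Polynomial.eval_eq_sum_range, charPolyH_natDegree, Finset.sum_range_succ] at h1
    have hlead : (charPolyH B h).coeff n = 1 := by
      have := (charPolyH_monic h).coeff_natDegree
      rwa [charPolyH_natDegree] at this
    rw [hlead, one_mul] at h1
    rw [Polynomial.eval₂_add, Polynomial.eval₂_pow, Polynomial.eval₂_X, hR,
      Polynomial.eval₂_finsetSum, add_comm]
    rw [← h1]
    congr 1
    refine Finset.sum_congr rfl fun k _ => ?_
    rw [Polynomial.eval₂_mul, Polynomial.eval₂_C, Polynomial.eval₂_pow, Polynomial.eval₂_X, hp]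


/-! ### Transfer to Laurent series -/

theorem map_biEval {K A A' : Type*} [Field K] [Field A] [Field A'] [Algebra K A] [Algebra K A']
    (f : A →+* A') (hf : ∀ c : K, f (algebraMap K A c) = algebraMap K A' c) (a b : A)
    (P : Polynomial (Polynomial K)) : f (biEval a b P) = biEval (f a) (f b) P := by
  rw [biEval, biEval, Polynomial.hom_eval₂]
  congr 1
  refine Polynomial.ringHom_ext (fun c => ?_) ?_
  · simp [hf]
  · simp

theorem qexp_comp_evalJ :
    B.qexp.comp (evalJ B)
      = Polynomial.eval₂RingHom (algebraMap ℂ (LaurentSeries ℂ)) (B.qexp (B.JH 1 (one_dvd N))) := by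
  refine Polynomial.ringHom_ext (fun c => ?_) ?_
  · simp only [evalJ, RingHom.comp_apply, Polynomial.coe_eval₂RingHom, Polynomial.eval₂_C,
      constHom_apply]
    rw [algebraMap_laurent_eq_single]
    exact B.qexp_const c
  · simp [evalJ]

/-- `j` as a Laurent series over `ℚ̄`. -/
def jBar : LaurentSeries Kbar := coeffEmb Kbar jq

theorem qexp_JH_one : B.qexp (B.JH 1 (one_dvd N)) = HolBase.Φ N jBar := by
  rw [← B.Φ_gen 1 (one_dvd N), qExpand_one_apply, jBar]

theorem qExpand_algebraMap (c : ℂ) :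
    qExpand ℂ N (algebraMap ℂ (LaurentSeries ℂ) c) = algebraMap ℂ (LaurentSeries ℂ) c := by
  rw [algebraMap_laurent_eq_single, qExpand_single, mul_zero]

/-- The monic relation over `ℂ` between the Laurent series (in `q`) of `j` and `r`. -/
theorem exists_monic_relation_complex (hB : InvariantPoly B) (r : RN N) :
    ∃ P : Polynomial (Polynomial ℂ), P.Monic ∧ P.natDegree = Fintype.card (XX N) ∧
      biEval (coeffMap ιK jBar) (coeffMap ιK (r : LaurentSeries Kbar)) P = 0 := by
  obtain ⟨P, hP, hPn, h0⟩ := exists_monic_relation_hol hB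
    (h := B.bridge r) fun γ hγ => B.compH_bridge_of_mem hγ r
  refine ⟨P, hP, hPn, ?_⟩
  have h1 := congrArg B.qexp h0
  rw [Polynomial.hom_eval₂, qexp_comp_evalJ, map_zero, B.qexp_bridge, qexp_JH_one] at h1
  apply qExpand_injective (R := ℂ) N
  rw [map_zero, map_biEval (qExpand ℂ N) qExpand_algebraMap]
  exact h1

/-- The monic relation over `ℚ̄` in `ℚ̄((q))`. -/
theorem exists_monic_relation_bar (hB : InvariantPoly B) (r : RN N) :
    ∃ Q : Polynomial (Polynomial Kbar), Q.Monic ∧ Q.natDegree = Fintype.card (XX N) ∧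
      biEval jBar (r : LaurentSeries Kbar) Q = 0 := by
  obtain ⟨P, hP, hPn, h0⟩ := exists_monic_relation_complex hB r
  exact exists_monic_descent ιK (coeffMap ιK) (fun _ _ => rfl) jBar r _ P hP hPn h0

/-- The monic relation over `ℚ̄` in the function field `FF N`. -/
theorem exists_monic_relation_FF (hB : InvariantPoly B) (r : RN N) :
    ∃ Q : Polynomial (Polynomial Kbar), Q.Monic ∧ Q.natDegree = Fintype.card (XX N) ∧
      biEval (jF N) (inclRN N r) Q = 0 := by
  obtain ⟨Q, hQ, hQn, h0⟩ := exists_monic_relation_bar hB r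
  refine ⟨Q, hQ, hQn, ?_⟩
  apply (algebraMap (FF N) (LaurentSeries Kbar)).injective
  rw [map_zero]
  exact (map_biEval (K := Kbar) (algebraMap (FF N) (LaurentSeries Kbar)) (fun c => rfl)
    (jF N) (inclRN N r) Q).trans h0


/-! ### The generating set and the final bound -/

open scoped Classical in
/-- The finite generating set `{j(q^d) : d ∣ N}` of `FF N`. -/
def gensFF (N : ℕ) [NeZero N] : Finset (FF N) :=
  N.divisors.attach.image fun d : {x // x ∈ N.divisors} =>
    haveI : NeZero d.1 := ⟨(Nat.pos_of_mem_divisors d.2).ne'⟩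
    inclRN N (jR N d.1 (Nat.dvd_of_mem_divisors d.2))

theorem inclRN_jR_mem_gensFF (d : ℕ) [NeZero d] (hd : d ∣ N) :
    inclRN N (jR N d hd) ∈ gensFF N := by
  classical
  rw [gensFF, Finset.mem_image]
  exact ⟨⟨d, Nat.mem_divisors.mpr ⟨hd, NeZero.ne N⟩⟩, Finset.mem_attach _ _, rfl⟩

theorem gensFF_subset_range : (gensFF N : Set (FF N)) ⊆ Set.range (inclRN N) := by
  classical
  intro f hf
  rw [Finset.mem_coe, gensFF, Finset.mem_image] at hf
  obtain ⟨d, -, rfl⟩ := hf
  exact ⟨_, rfl⟩

theorem span_gensFF_le (θ : FF N) (hθ : θ ∈ Submodule.span Kbar (gensFF N : Set (FF N))) :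
    ∃ r : RN N, inclRN N r = θ := by
  have hle : Submodule.span Kbar (gensFF N : Set (FF N))
      ≤ LinearMap.range (inclRN N).toLinearMap := by
    rw [Submodule.span_le]
    intro f hf
    obtain ⟨r, hr⟩ := gensFF_subset_range hf
    exact ⟨r, hr⟩
  obtain ⟨r, hr⟩ := hle hθ
  exact ⟨r, hr⟩

theorem inclRN_mem_adjoin_gensFF (r : RN N) :
    inclRN N r ∈ IntermediateField.adjoin Kbar (gensFF N : Set (FF N)) := by
  obtain ⟨r, hr⟩ := r
  induction hr using Algebra.adjoin_induction with
  | mem x hx =>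
      obtain ⟨y, ⟨d, hne, hd, rfl⟩, rfl⟩ := hx
      have : (⟨coeffEmb Kbar (qExpand ℚ d jq), Algebra.subset_adjoin
          ⟨_, ⟨d, hne, hd, rfl⟩, rfl⟩⟩ : RN N) = jR N d hd := rfl
      rw [this]
      exact IntermediateField.subset_adjoin Kbar _ (inclRN_jR_mem_gensFF d hd)
  | algebraMap c =>
      have : inclRN N (⟨algebraMap Kbar (LaurentSeries Kbar) c,
          Subalgebra.algebraMap_mem _ c⟩ : RN N) = algebraMap Kbar (FF N) c := rfl
      rw [this]
      exact IntermediateField.algebraMap_mem _ _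
  | add x y hx hy ihx ihy =>
      have : inclRN N (⟨x + y, add_mem hx hy⟩ : RN N)
          = inclRN N ⟨x, hx⟩ + inclRN N ⟨y, hy⟩ := rfl
      rw [this]
      exact add_mem ihx ihy
  | mul x y hx hy ihx ihy =>
      have : inclRN N (⟨x * y, mul_mem hx hy⟩ : RN N)
          = inclRN N ⟨x, hx⟩ * inclRN N ⟨y, hy⟩ := rfl
      rw [this]
      exact mul_mem ihx ihy

theorem adjoin_gensFF_eq_top :
    IntermediateField.adjoin Kbar (insert (jF N) (gensFF N : Set (FF N))) = ⊤ := by
  rw [eq_top_iff]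
  intro f _
  obtain ⟨r, t, -, rfl⟩ := exists_div_inclRN N f
  have hmono : IntermediateField.adjoin Kbar (gensFF N : Set (FF N))
      ≤ IntermediateField.adjoin Kbar (insert (jF N) (gensFF N : Set (FF N))) :=
    IntermediateField.adjoin.mono _ _ _ (Set.subset_insert _ _)
  exact div_mem (hmono (inclRN_mem_adjoin_gensFF r)) (hmono (inclRN_mem_adjoin_gensFF t))

/-- **MOD-DEG.**  The degree bound `[FF N : ℚ̄(j)] ≤ |SL₂(ℤ)/Γ₀(N)|` from a `HolBase` satisfying
the invariant polynomial principle. -/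
theorem degree_bound (hB : InvariantPoly B) :
    FiniteDimensional ↥(IntermediateField.adjoin Kbar {jF N}) (FF N) ∧
      Module.finrank ↥(IntermediateField.adjoin Kbar {jF N}) (FF N) ≤ Nat.card (XX N) := by
  rw [Nat.card_eq_fintype_card]
  refine finrank_le_of_span_monic (jF N) (gensFF N) _ adjoin_gensFF_eq_top fun θ hθ => ?_
  obtain ⟨r, rfl⟩ := span_gensFF_le θ hθ
  exact exists_monic_relation_FF hB r

end Fermat.Agent.S24.H644
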