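import Mathlib

/-!
# S24 / MOD-DEG (helper644): lower bound for the degree from distinct embeddings
-/

set_option autoImplicit false

namespace Fermat.Agent.S24.H644

open IntermediateField

noncomputable section

variable {K F L : Type*} [Field K] [Field F] [Algebra K F] [Field L]

/-- Two ring homs out of `F` which agree on `K` and on `j` agree on `K(j)`. -/
theorem ringHom_eq_on_adjoin_simple (j : F) (f g : F →+* L)
    (hK : ∀ c : K, f (algebraMap K F c) = g (algebraMap K F c)) (hj : f j = g j)
    {e : F} (he : e ∈ adjoin K ({j} : Set F)) : f e = g e := by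
  induction he using adjoin_induction with
  | mem x hx =>
    rw [Set.mem_singleton_iff] at hx
    rw [hx, hj]
  | algebraMap c => exact hK c
  | add x y _ _ hx hy => rw [map_add, map_add, hx, hy]
  | inv x _ hx => rw [map_inv₀, map_inv₀, hx]
  | mul x y _ _ hx hy => rw [map_mul, map_mul, hx, hy]

/-- **Lower bound.** `|X|` pairwise distinct ring embeddings `F → L` which agree on `K(j)` force
`|X| ≤ [F : K(j)]`. -/
theorem natCard_le_finrank_of_embeddings {X : Type*} (j : F)
    [FiniteDimensional ↥(adjoin K ({j} : Set F)) F]
    (σ : X → (F →+* L)) (hinj : Function.Injective σ)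
    (hK : ∀ (x y : X) (c : K), σ x (algebraMap K F c) = σ y (algebraMap K F c))
    (hj : ∀ x y : X, σ x j = σ y j) :
    Nat.card X ≤ Module.finrank ↥(adjoin K ({j} : Set F)) F := by
  classical
  rcases isEmpty_or_nonempty X with hX | ⟨⟨x₀⟩⟩
  · simp
  set E : IntermediateField K F := adjoin K ({j} : Set F) with hE
  letI : Algebra E L := ((σ x₀).comp (algebraMap E F)).toAlgebra
  have hcomm : ∀ (x : X) (e : E), σ x (algebraMap E F e) = algebraMap E L e := by
    intro x e
    exact ringHom_eq_on_adjoin_simple j (σ x) (σ x₀) (hK x x₀) (hj x x₀) e.2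
  let τ : X → (F →ₐ[E] L) := fun x => { σ x with commutes' := hcomm x }
  have hτ : Function.Injective τ := by
    intro x y h
    apply hinj
    ext f
    exact congrArg (fun t : F →ₐ[E] L => t f) h
  calc Nat.card X ≤ Nat.card (F →ₐ[E] L) := Nat.card_le_card_of_injective τ hτ
    _ ≤ Module.finrank E F := card_algHom_le_finrank E F L

end

end Fermat.Agent.S24.H644
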